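/-
S15, block HJ (helper257): the contract `HeckeGalois`: the Hecke correspondences commute with the Galois action
on `J₀(N)`.  General part: push-forward and pull-back of divisors along `φ : F → F'` are equivariant for
semilinear automorphisms intertwined by `φ`.
-/
import Fermat.Agent.S15.Contracts
import Fermat.Agent.S37.HeckeInputs.Main
import Fermat.Prelude.Thm_ModularCurve_coeffMap_qExpand

set_option autoImplicit false

noncomputable section

namespace Fermat.Agent.S15.HJ

open AlgebraicCurve AlgebraicCurve.SemilinearAut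
open scoped Pointwise

section General

variable {K F F' : Type*} [Field K] [Field F] [Field F'] [Algebra K F] [Algebra K F']
  (φ : F →ₐ[K] F') (hφ : φ.toRingHom.IsIntegral) {g : SemilinearAut K F} {g' : SemilinearAut K F'}

theorem restrictAlong_smul (h : IntertwinesAlong (φ : F →+* F') g g') (w : Place K F') :
    (g' • w).restrictAlong φ hφ = g • w.restrictAlong φ hφ := by
  ext1
  ext x
  show φ x ∈ g' • w.toValuationSubring ↔ x ∈ g • (w.restrictAlong φ hφ).toValuationSubring
  rw [ValuationSubring.mem_pointwise_smul_iff_inv_smul_mem,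
    ValuationSubring.mem_pointwise_smul_iff_inv_smul_mem]
  have h1 : g'⁻¹ • φ x = φ (g⁻¹ • x) := h.inv x
  rw [h1]
  rfl

theorem ord_smul_map (h : IntertwinesAlong (φ : F →+* F') g g') (w : Place K F') (f : F) :
    (g' • w).ord (φ (g • f)) = w.ord (φ f) := by
  have h1 : g' • φ f = φ (g • f) := h f
  rw [← h1, ord_smul]

include hφ in
theorem ramificationIndexAlong_smul_le (h : IntertwinesAlong (φ : F →+* F') g g')
    (w : Place K F') : (g' • w).ramificationIndexAlong φ ≤ w.ramificationIndexAlong φ := by
  letI := algebraAlong φ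
  haveI := isIntegral_along φ hφ
  obtain ⟨f, hf, hfe⟩ := w.exists_ord_eq_ramificationIndex (F := F)
  have hpos := w.ramificationIndex_pos (F := F)
  have h1 : (g' • w).ord (algebraMap F F' (g • f)) = w.ord (algebraMap F F' f) :=
    ord_smul_map φ h w f
  have h2 := (g' • w).ramificationIndex_le_ord (F := F) (f := g • f) (by simpa using hf)
    (by rw [h1, hfe]; exact_mod_cast hpos)
  rw [h1, hfe] at h2
  exact_mod_cast h2

include hφ in
theorem ramificationIndexAlong_smul (h : IntertwinesAlong (φ : F →+* F') g g')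
    (w : Place K F') : (g' • w).ramificationIndexAlong φ = w.ramificationIndexAlong φ := by
  refine le_antisymm (ramificationIndexAlong_smul_le φ hφ h w) ?_
  have := ramificationIndexAlong_smul_le φ hφ h.inv (g' • w)
  rwa [inv_smul_smul] at this

theorem pullbackAlong_smul [HasPrincipalDivisors K F']
    (h : IntertwinesAlong (φ : F →+* F') g g') (D : Divisor K F) :
    Divisor.pullbackAlong φ hφ (g • D) = g' • Divisor.pullbackAlong φ hφ D := by
  ext w
  rw [Divisor.pullbackAlong_apply, divisor_smul_apply, divisor_smul_apply,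
    Divisor.pullbackAlong_apply, restrictAlong_smul φ hφ h.inv,
    ramificationIndexAlong_smul φ hφ h.inv]

theorem pushforwardAlong_smul (hdeg : ∀ w : Place K F', w.inertiaDegAlong φ hφ = 1)
    (h : IntertwinesAlong (φ : F →+* F') g g') (D : Divisor K F') :
    Divisor.pushforwardAlong φ hφ (g' • D) = g • Divisor.pushforwardAlong φ hφ D := by
  induction D using Finsupp.induction with
  | zero => simp
  | single_add w n D _ _ ih =>
    rw [smul_add, map_add, map_add, smul_add, ih, smul_single, Divisor.pushforwardAlong_single,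
      Divisor.pushforwardAlong_single, smul_single, restrictAlong_smul φ hφ h, hdeg, hdeg]

theorem correspondence_smul [HasPrincipalDivisors K F'] (ψ : F →ₐ[K] F')
    (hψ : ψ.toRingHom.IsIntegral) (hdeg : ∀ w : Place K F', w.inertiaDegAlong ψ hψ = 1)
    (h : IntertwinesAlong (φ : F →+* F') g g') (h' : IntertwinesAlong (ψ : F →+* F') g g')
    (D : Divisor K F) :
    Divisor.correspondence φ ψ hφ hψ (g • D) = g • Divisor.correspondence φ ψ hφ hψ D := by
  rw [Divisor.correspondence_apply, Divisor.correspondence_apply, pullbackAlong_smul φ hφ h,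
    pushforwardAlong_smul ψ hψ hdeg h']

end General

section Modular

open ModularCurve Fermat.Agent.S24 Fermat.Agent.S37.HeckeInputs

variable (N ℓ : ℕ) [NeZero N] [NeZero ℓ]

theorem intertwines_alpha (σ : GQ) :
    IntertwinesAlong (heckeAlphaBar Kbar N ℓ : FN N →+* FN (N * ℓ))
      (arithmeticGalois (modularFunctionFieldFull N) σ)
      (arithmeticGalois (modularFunctionFieldFull (N * ℓ)) σ) := by
  intro x
  apply Subtype.ext
  show coeffMap (σ : Kbar →+* Kbar) ((heckeAlphaBar Kbar N ℓ x : FN (N * ℓ)) : LaurentSeries Kbar) =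
    ((heckeAlphaBar Kbar N ℓ (arithmeticGalois (modularFunctionFieldFull N) σ • x) : FN (N * ℓ)) :
      LaurentSeries Kbar)
  rw [coe_heckeAlphaBar, coe_heckeAlphaBar, coe_arithmeticGalois_smul]

theorem intertwines_beta (σ : GQ) :
    IntertwinesAlong (heckeBetaBar Kbar N ℓ : FN N →+* FN (N * ℓ))
      (arithmeticGalois (modularFunctionFieldFull N) σ)
      (arithmeticGalois (modularFunctionFieldFull (N * ℓ)) σ) := by
  intro x
  apply Subtype.ext
  show coeffMap (σ : Kbar →+* Kbar) ((heckeBetaBar Kbar N ℓ x : FN (N * ℓ)) : LaurentSeries Kbar) =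
    ((heckeBetaBar Kbar N ℓ (arithmeticGalois (modularFunctionFieldFull N) σ • x) : FN (N * ℓ)) :
      LaurentSeries Kbar)
  rw [coe_heckeBetaBar, coe_heckeBetaBar, coe_arithmeticGalois_smul, coeffMap_qExpand]

theorem heckeDiv_smul (σ : GQ) (D : Divisor Kbar (FN N)) :
    heckeDiv N ℓ (arithmeticGalois (modularFunctionFieldFull N) σ • D) =
      arithmeticGalois (modularFunctionFieldFull N) σ • heckeDiv N ℓ D :=
  correspondence_smul _ _ _ _ (fun w => inertiaDegAlong_eq_one _ _ w) (intertwines_beta N ℓ σ)
    (intertwines_alpha N ℓ σ) D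

theorem heckeOperatorAlong_smul (σ : GQ) (x : JZero N) :
    heckeOperatorAlong Kbar N ℓ (σ • x) = σ • heckeOperatorAlong Kbar N ℓ x := by
  obtain ⟨D, rfl⟩ := Pic0.mk_surjective x
  have e1 : σ • (Pic0.mk D : JZero N) =
      Pic0.mk (SemilinearAut.degZeroSMulHom (arithmeticGalois (modularFunctionFieldFull N) σ) D) :=
    rfl
  rw [e1, heckeOperatorAlong_mk, heckeOperatorAlong_mk]
  have e2 : σ • (Pic0.mk ⟨heckeDiv N ℓ D, heckeDiv_mem_degZero N ℓ D.2⟩ : JZero N) =
      Pic0.mk (SemilinearAut.degZeroSMulHom (arithmeticGalois (modularFunctionFieldFull N) σ)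
        ⟨heckeDiv N ℓ D, heckeDiv_mem_degZero N ℓ D.2⟩) := rfl
  rw [e2]
  refine congrArg Pic0.mk (Subtype.ext ?_)
  exact heckeDiv_smul N ℓ σ D

end Modular

end Fermat.Agent.S15.HJ

namespace Fermat.Agent.S15

open ModularCurve

theorem heckeGalois (N : ℕ) [NeZero N] : HeckeGalois N := by
  intro p hp _ σ x
  haveI : NeZero p := ⟨hp.ne_zero⟩
  have h : Tp N p = heckeOperatorAlong Fermat.Agent.S24.Kbar N p := by
    unfold Tp
    rw [dif_neg (NeZero.ne p)]
  rw [h]
  exact HJ.heckeOperatorAlong_smul N p σ x

end Fermat.Agent.S15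

end
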