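/-
S15, blocks HJ / LocL (helper257): consequences of the landed S37 toolkit (the auxiliary reduction map
`S37.r A N : J₀(N) → G A N`, invariant under inertia, injective on prime-to-`ℓ` torsion, satisfying the
Eichler-Shimura congruence):  the contracts `LocL r` and `EichlerShimuraTors n`.
-/
import Fermat.Agent.S15.Contracts
import Fermat.Agent.S37.Final
import Fermat.Agent.S37.LF.Main

set_option autoImplicit false

noncomputable section

namespace Fermat.Agent.S15

open ModularCurve AlgebraicCurve Fermat.Agent.S24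

variable (N : ℕ) [NeZero N]

theorem redInertia_of_prime (A : ValuationSubring Kbar) {ℓ : ℕ} (hℓ : ℓ.Prime)
    (hA : A.LiesOverPrime ℓ) (hℓN : ¬ ℓ ∣ N) : S37.RedInertia A N := by
  haveI : Fact ℓ.Prime := ⟨hℓ⟩
  exact S37.final_redInertia A N ℓ hA hℓN

theorem redInj_of_prime (A : ValuationSubring Kbar) {ℓ : ℕ} (hℓ : ℓ.Prime)
    (hA : A.LiesOverPrime ℓ) (hℓN : ¬ ℓ ∣ N) : S37.RedInj A N ℓ := by
  haveI : Fact ℓ.Prime := ⟨hℓ⟩
  exact S37.redInj_of_good A N ℓ hℓ hℓN
    (fun M _ hM hG => S37.final_redInj_good A M ℓ hA hM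
      (S37.lf A M ℓ hA hM hG (S37.final_qa A M ℓ hA hM).1 (S37.final_qa A M ℓ hA hM).2
        (S37.final_transc_j A M) (S37.final_transc_jinv A M)))
    (S37.final_fibreCompat A N 2) (S37.final_fibreCompat A N 3)

theorem Tp_eq {p : ℕ} [NeZero p] : Tp N p = heckeOperatorAlong Kbar N p := by
  unfold Tp
  rw [dif_neg (NeZero.ne p)]

/-- the Galois action as an additive map. -/
def galHom (σ : GQ) : JZero N →+ JZero N := DistribMulAction.toAddMonoidHom (JZero N) σ

theorem galHom_apply (σ : GQ) (x : JZero N) : galHom N σ x = σ • x := rfl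

/-- **LocL**. -/
theorem locL (r : ℕ) : LocL N r := by
  intro ℓ hℓ hℓNr A hA τ hτ R hR
  have hℓN : ¬ ℓ ∣ N := fun h => hℓNr (h.mul_right r)
  have hℓr : ¬ ℓ ∣ r := fun h => hℓNr (h.mul_left N)
  have h0 : τ • R - R = 0 := by
    refine S37.r_injective (redInj_of_prime N A hℓ hA hℓN) r hℓr _ ?_ ?_
    · show r • ((galHom N τ - AddMonoidHom.id _ : JZero N →+ JZero N)) R = 0
      rw [← map_nsmul]
      show τ • (r • R) - r • R = 0
      rw [hR τ, sub_self]
    · rw [map_sub, S37.r_inertia (redInertia_of_prime N A hℓ hA hℓN) τ hτ, sub_self]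
  exact sub_eq_zero.mp h0

/-- **Eichler-Shimura** on the torsion. -/
theorem eichlerShimuraTors (n : ℕ) : EichlerShimuraTors N n := by
  intro p hp hpNn A hA φ hφ x hx
  have hpN : ¬ p ∣ N := fun h => hpNn (h.mul_right n)
  have hpn : ¬ p ∣ n := fun h => hpNn (h.mul_left N)
  haveI : NeZero p := ⟨hp.ne_zero⟩
  haveI : Fact p.Prime := ⟨hp⟩
  rw [Tp_eq]
  refine S37.r_injective (redInj_of_prime N A hp hA hpN) n hpn _ ?_ ?_
  · show n • ((galHom N φ).comp (galHom N φ) - (heckeOperatorAlong Kbar N p).comp (galHom N φ)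
      + nsmulAddMonoidHom p : JZero N →+ JZero N) x = 0
    rw [← map_nsmul, hx, map_zero]
  · exact S37.r_frobenius (S37.HeckeInputs.heckeInputsAlong N p) (S37.final_redHecke A N p hA hpN)
      φ hφ x

end Fermat.Agent.S15

end
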