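/-
S15, block HJ (helper257): the contract `HeckeCommTors`; in fact `T_p T_q = T_q T_p` on the whole of `J₀(N)`.

On functions `T_p T_q u = T_q T_p u` (`GAL.E.HeckeOp.T_comm`, a `q`-expansion computation), hence the commutator
`C` of the two correspondences kills the principal divisors.  As `J₀(N)(ℚ̄)` is divisible, the divisor `C D`
(`deg D = 0`) is divisible by every `n > 0`, hence zero.
-/
import Fermat.Agent.S15.HJ.Red
import Fermat.Agent.GAL.E.Exists
import Fermat.Agent.GAL.E.HeckeComm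
import Fermat.Agent.S17.W.Div

set_option autoImplicit false

noncomputable section

namespace Fermat.Agent.S15.HJ

open AlgebraicCurve ModularCurve Fermat.Agent.S24 Fermat.Agent.S37.HeckeInputs Fermat.Agent.GAL.E

variable (N : ℕ) [NeZero N]

theorem heckeDiv_of_ord (ℓ : ℕ) [NeZero ℓ] {u : FN N} (hu : u ≠ 0) {D : Divisor Kbar (FN N)}
    (hD : ∀ v, D v = v.ord u) (v : Place Kbar (FN N)) :
    heckeDiv N ℓ D v = v.ord (heckeF N ℓ u) :=
  heckeDiv_principal N ℓ hu hD v

theorem heckeF_ne_zero (ℓ : ℕ) [NeZero ℓ] {u : FN N} (hu : u ≠ 0) : heckeF N ℓ u ≠ 0 := by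
  have h : IsUnit (heckeF N ℓ u) := (isUnit_iff_ne_zero.2 hu).map (heckeF N ℓ)
  exact h.ne_zero

theorem heckeDiv_comm_principal {p q : ℕ} [NeZero p] [NeZero q] (hp : p.Prime) (hq : q.Prime)
    (hpN : ¬ p ∣ N) (hqN : ¬ q ∣ N) (hpq : p ≠ q) {D : Divisor Kbar (FN N)}
    (hD : D ∈ Divisor.principal (K := Kbar) (F := FN N)) :
    heckeDiv N p (heckeDiv N q D) = heckeDiv N q (heckeDiv N p D) := by
  obtain ⟨u, hu, hD⟩ := hD
  ext v
  rw [heckeDiv_of_ord N p (heckeF_ne_zero N q hu) (heckeDiv_of_ord N q hu hD),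
    heckeDiv_of_ord N q (heckeF_ne_zero N p hu) (heckeDiv_of_ord N p hu hD)]
  have := HeckeOp.T_comm ((Nat.coprime_primes hp hq).2 hpq) (heckeOp N p hp hpN)
    (heckeOp N q hq hqN) u
  rw [heckeOp_T, heckeOp_T] at this
  rw [this]

theorem heckeDiv_comm {p q : ℕ} [NeZero p] [NeZero q] (hp : p.Prime) (hq : q.Prime)
    (hpN : ¬ p ∣ N) (hqN : ¬ q ∣ N) (hpq : p ≠ q) (D : Divisor.degZero (K := Kbar) (F := FN N)) :
    heckeDiv N p (heckeDiv N q D) = heckeDiv N q (heckeDiv N p D) := by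
  have key : ∀ n : ℕ, 0 < n → ∃ E : Divisor Kbar (FN N),
      heckeDiv N p (heckeDiv N q D) - heckeDiv N q (heckeDiv N p D) = n • E := by
    intro n hn
    obtain ⟨y, hy⟩ := Fermat.Agent.S17.W.exists_nsmul_eq_JZero N n hn (Pic0.mk D)
    obtain ⟨D', rfl⟩ := Pic0.mk_surjective y
    have h1 : ((D - n • D' : Divisor.degZero (K := Kbar) (F := FN N)) : Divisor Kbar (FN N)) ∈
        Divisor.principal (K := Kbar) (F := FN N) := by
      have h2 : (QuotientAddGroup.mk (D - n • D') : JZero N) = 0 := by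
        have h3 : (QuotientAddGroup.mk (D - n • D') : JZero N) =
          Pic0.mk D - n • Pic0.mk D' := rfl
        rw [h3, hy, sub_self]
      exact (QuotientAddGroup.eq_zero_iff (D - n • D')).1 h2
    have h4 := heckeDiv_comm_principal N hp hq hpN hqN hpq h1
    refine ⟨heckeDiv N p (heckeDiv N q D') - heckeDiv N q (heckeDiv N p D'), ?_⟩
    have h5 : ((D - n • D' : Divisor.degZero (K := Kbar) (F := FN N)) : Divisor Kbar (FN N)) =
        (D : Divisor Kbar (FN N)) - n • (D' : Divisor Kbar (FN N)) := rfl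
    rw [h5] at h4
    simp only [map_sub, map_nsmul] at h4
    rw [smul_sub]
    rw [sub_eq_sub_iff_add_eq_add] at h4 ⊢
    rw [h4, add_comm]
  rw [← sub_eq_zero]
  ext v
  set C := heckeDiv N p (heckeDiv N q D) - heckeDiv N q (heckeDiv N p D) with hC
  obtain ⟨E, hE⟩ := key ((C v).natAbs + 1) (Nat.succ_pos _)
  have h1 : (((C v).natAbs + 1 : ℕ) : ℤ) ∣ C v := by
    refine ⟨E v, ?_⟩
    have h0 := DFunLike.congr_fun hE v
    rw [Finsupp.smul_apply, nsmul_eq_mul] at h0
    exact h0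
  by_contra hne
  have h2 := Int.le_of_dvd (Int.natAbs_pos.2 hne |> fun h => by exact_mod_cast h)
    ((Int.dvd_natAbs).2 h1)
  push_cast at h2
  omega

theorem heckeOperatorAlong_comm {p q : ℕ} [NeZero p] [NeZero q] (hp : p.Prime) (hq : q.Prime)
    (hpN : ¬ p ∣ N) (hqN : ¬ q ∣ N) (x : JZero N) :
    heckeOperatorAlong Kbar N p (heckeOperatorAlong Kbar N q x) =
      heckeOperatorAlong Kbar N q (heckeOperatorAlong Kbar N p x) := by
  by_cases hpq : p = q
  · subst hpq
    rfl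
  obtain ⟨D, rfl⟩ := Pic0.mk_surjective x
  rw [heckeOperatorAlong_mk, heckeOperatorAlong_mk, heckeOperatorAlong_mk, heckeOperatorAlong_mk]
  exact congrArg Pic0.mk (Subtype.ext (heckeDiv_comm N hp hq hpN hqN hpq D))

end Fermat.Agent.S15.HJ

namespace Fermat.Agent.S15

open ModularCurve

/-- The Hecke operators commute on the whole of `J₀(N)`. -/
theorem Tp_comm (N : ℕ) [NeZero N] {p q : ℕ} (hp : p.Prime) (hq : q.Prime) (hpN : ¬ p ∣ N)
    (hqN : ¬ q ∣ N) (x : JZero N) : Tp N p (Tp N q x) = Tp N q (Tp N p x) := by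
  haveI : NeZero p := ⟨hp.ne_zero⟩
  haveI : NeZero q := ⟨hq.ne_zero⟩
  rw [Tp_eq, Tp_eq]
  exact HJ.heckeOperatorAlong_comm N hp hq hpN hqN x

theorem heckeCommTors (N : ℕ) [NeZero N] (n : ℕ) : HeckeCommTors N n :=
  fun _ _ hp hq hpN hqN x _ => Tp_comm N hp hq hpN hqN x

end Fermat.Agent.S15

end
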