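/-
S15, block HJ (helper257): the contract `OpenStab` (from S17/W/OpenStab).
-/
import Fermat.Agent.S15.Contracts
import Fermat.Agent.S17.W.OpenStab

set_option autoImplicit false

noncomputable section

namespace Fermat.Agent.S15

open ModularCurve AlgebraicCurve Fermat.Agent.S24

theorem openStab (N : ℕ) [NeZero N] : OpenStab N := by
  intro x
  obtain ⟨D, rfl⟩ := Pic0.mk_surjective x
  obtain ⟨L, hL, h⟩ := S17.W.exists_finite_level_divisor N (D : Divisor Kbar (FN N))
  refine ⟨L, hL, fun σ hσ => ?_⟩
  show arithmeticGalois (modularFunctionFieldFull N) σ • (Pic0.mk D) = Pic0.mk D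
  rw [SemilinearAut.pic0_smul_mk]
  refine congrArg Pic0.mk (Subtype.ext ?_)
  rw [SemilinearAut.coe_degZeroSMulHom]
  exact h σ ((IntermediateField.mem_fixingSubgroup_iff L σ).1 hσ)

end Fermat.Agent.S15

end
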